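import Mathlib.LinearAlgebra.Matrix.ToLin
import Mathlib.LinearAlgebra.Matrix.NonsingularInverse
import Mathlib.LinearAlgebra.Dimension.Free
import Mathlib.LinearAlgebra.FiniteDimensional.Lemmas
import Mathlib.RingTheory.LocalRing.Module

/-!
# Maps of free modules over a local ring, tested modulo the maximal ideal
-/

set_option autoImplicit false

noncomputable section

open IsLocalRing

namespace Fermat.Agent.Lifting.Models

variable {A : Type*} [CommRing A] [IsLocalRing A]

theorem mem_maximalIdeal_of_residue_eq_zero {a : A} (h : residue A a = 0) :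
    a ∈ maximalIdeal A :=
  (residue_eq_zero_iff a).1 h

/-- A map of free modules injective modulo the maximal ideal has a left inverse. -/
theorem exists_leftInverse_of_injective_mod {V W : Type*} [AddCommGroup V] [Module A V]
    [AddCommGroup W] [Module A W] [Module.Free A V] [Module.Finite A V] [Module.Free A W]
    [Module.Finite A W] (f : V →ₗ[A] W)
    (h : ∀ v, f v ∈ maximalIdeal A • (⊤ : Submodule A W) →
      v ∈ maximalIdeal A • (⊤ : Submodule A V)) :
    ∃ g : W →ₗ[A] V, g ∘ₗ f = LinearMap.id := by
  classical
  let bV := Module.Free.chooseBasis A V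
  let bW := Module.Free.chooseBasis A W
  set F := LinearMap.toMatrix bV bW f with hFdef
  let L := (F.map (residue A)).mulVecLin
  have hcoord : ∀ (v : V) (i), v ∈ maximalIdeal A • (⊤ : Submodule A V) →
      residue A (bV.repr v i) = 0 := by
    intro v i hv
    refine Submodule.smul_induction_on hv (fun a ha z _ => ?_) fun x y hx hy => ?_
    · rw [map_smul, Finsupp.smul_apply, smul_eq_mul, map_mul, (residue_eq_zero_iff a).2 ha,
        zero_mul]
    · rw [map_add, Finsupp.add_apply, map_add, hx, hy, add_zero]
  have hL : LinearMap.ker L = ⊥ := by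
    refine (LinearMap.ker_eq_bot').2 fun c hc => ?_
    choose c' hc' using fun i => residue_surjective (c i)
    have hmem : f (∑ i, c' i • bV i) ∈ maximalIdeal A • (⊤ : Submodule A W) := by
      rw [← bW.sum_repr (f (∑ i, c' i • bV i))]
      refine Submodule.sum_mem _ fun j _ =>
        Submodule.smul_mem_smul ((residue_eq_zero_iff _).1 ?_) Submodule.mem_top
      rw [← congrFun (LinearMap.toMatrix_mulVec_repr bV bW f (∑ i, c' i • bV i)) j,
        ← hFdef, bV.repr_sum_self, RingHom.map_mulVec]
      have hcc : residue A ∘ c' = c := funext hc'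
      rw [hcc]
      exact congrFun hc j
    funext i
    rw [← hc' i]
    have := hcoord _ i (h _ hmem)
    rwa [bV.repr_sum_self] at this
  obtain ⟨R, hR⟩ := L.exists_leftInverse_of_injective hL
  choose Gm hGm using fun i j => residue_surjective (LinearMap.toMatrix' R i j)
  let G : Matrix (Module.Free.ChooseBasisIndex A V) (Module.Free.ChooseBasisIndex A W) A :=
    Matrix.of Gm
  have hG : (G * F).map (residue A) = 1 := by
    rw [Matrix.map_mul, show G.map (residue A) = LinearMap.toMatrix' R from
      Matrix.ext fun i j => hGm i j, ← LinearMap.toMatrix'_id, ← hR, LinearMap.toMatrix'_comp]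
    exact congrArg (LinearMap.toMatrix' R * ·) (LinearMap.toMatrix'_toLin' _).symm
  have hdet : IsUnit (Matrix.det (G * F)) := by
    refine (residue_ne_zero_iff_isUnit _).1 ?_
    rw [RingHom.map_det, RingHom.mapMatrix_apply, hG, Matrix.det_one]
    exact one_ne_zero
  refine ⟨Matrix.toLin bW bV ((G * F)⁻¹ * G), (LinearMap.toMatrix bV bV).injective ?_⟩
  rw [LinearMap.toMatrix_comp bV bW bV, LinearMap.toMatrix_toLin, ← hFdef, Matrix.mul_assoc,
    Matrix.nonsing_inv_mul _ hdet, LinearMap.toMatrix_id]

/-- A map surjective modulo the maximal ideal is surjective. -/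
theorem surjective_of_surjective_mod {V W : Type*} [AddCommGroup V] [Module A V]
    [AddCommGroup W] [Module A W] [Module.Finite A W] (f : V →ₗ[A] W)
    (h : ∀ w, ∃ v, f v - w ∈ maximalIdeal A • (⊤ : Submodule A W)) : Function.Surjective f := by
  refine LinearMap.range_eq_top.1 (top_le_iff.1 ?_)
  refine Submodule.le_of_le_smul_of_le_jacobson_bot Module.Finite.fg_top
    (maximalIdeal_le_jacobson ⊥) fun w _ => ?_
  obtain ⟨v, hv⟩ := h w
  exact Submodule.mem_sup.2 ⟨f v, LinearMap.mem_range_self f v, -(f v - w), neg_mem hv, by abel⟩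

/-- The complement of a split injection: a free summand of complementary rank. -/
theorem exists_complement_of_leftInverse {V W : Type*} [AddCommGroup V] [Module A V]
    [AddCommGroup W] [Module A W] [Module.Free A V] [Module.Finite A V] [Module.Free A W]
    [Module.Finite A W] (f : V →ₗ[A] W) (g : W →ₗ[A] V) (hgf : g ∘ₗ f = LinearMap.id) :
    ∃ (C : Submodule A W) (q : W →ₗ[A] C), Module.Free A C ∧ Module.Finite A C ∧
      Module.finrank A C + Module.finrank A V = Module.finrank A W ∧
      (∀ c : C, q (c : W) = c) ∧ (∀ v, q (f v) = 0) ∧ ∀ w, f (g w) + (q w : W) = w := by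
  have hgf' : ∀ v, g (f v) = v := fun v => LinearMap.congr_fun hgf v
  let C : Submodule A W := LinearMap.ker g
  let q : W →ₗ[A] C := LinearMap.codRestrict C (LinearMap.id - f ∘ₗ g) fun w => by
    show g (w - f (g w)) = 0
    rw [map_sub, hgf', sub_self]
  have hq : ∀ w, (q w : W) = w - f (g w) := fun w => rfl
  have hfix : ∀ c : C, q (c : W) = c := fun c => Subtype.ext (by
    rw [hq, show g (c : W) = 0 from c.2, map_zero, sub_zero])
  have : Module.Finite A C := Module.Finite.of_surjective q fun c => ⟨c, hfix c⟩
  have : Module.Projective A C :=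
    Module.Projective.of_split C.subtype q (LinearMap.ext hfix)
  have hfree : Module.Free A C := Module.free_of_flat_of_isLocalRing
  refine ⟨C, q, hfree, inferInstance, ?_, hfix, fun v => Subtype.ext ?_, fun w => ?_⟩
  · let φ : (C × V) ≃ₗ[A] W := LinearEquiv.ofLinearMap (C.subtype.coprod f) (q.prod g)
      (LinearMap.ext fun w => by
        show (q w : W) + f (g w) = w
        rw [hq, sub_add_cancel])
      (LinearMap.ext fun ⟨c, v⟩ => by
        refine Prod.ext ?_ ?_
        · show q ((c : W) + f v) = c
          rw [map_add, hfix]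
          refine add_eq_left.2 (Subtype.ext ?_)
          rw [hq, hgf', sub_self]; rfl
        · show g ((c : W) + f v) = v
          rw [map_add, show g (c : W) = 0 from c.2, hgf', zero_add])
    rw [← φ.finrank_eq, Module.finrank_prod]
  · rw [hq, hgf', sub_self]; rfl
  · rw [hq, add_sub_cancel]

end Fermat.Agent.Lifting.Models

end
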